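import Fermat.Agent.S48.F1.Basic
import Fermat.Agent.S48.Top.Spec

/-!
# S48 / RES (Tower A1) — the REMAINING INPUTS of `Top.ResidualStatement`, as `Prop`s

RES deputy architect helper168 (row-lead decisions D1–D8 in `coord/S48-lead.md`).  The chain

  `Res.residual_of_parts (s : Bool) : RawES1Statement s → Occ1Statement s → Top.ResidualStatement`

is PROVED in `Fermat/Agent/S48/Res/Chain.lean` (sorry-free).  A piece is DONE when it proves one of
the `Prop`s of this file verbatim, for ONE value of the orientation flag `s` (the same for both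
pieces).  Objects: `Fermat/Agent/S48/F1/{Defs,Basic}.lean`.

Orientation (details in `coord/S48-F1.md`).  In the model `F1 M ⊆ ℚ((q))` the reduction of the
correspondence `T_p = α_* β^*` is `V + ⟨p⟩ F` with `⟨p⟩ = diamond1 M p` (`P_a ↦ P_{p a}` on
functions, `[z] ↦ [γ z]`, `γ₁₁ ≡ p`, on points), which gives `⟨p⟩ σ² - T_p σ + p = 0`, i.e. `s = true`.
The flag `s = false` (`⟨p⟩⁻¹` instead of `⟨p⟩`) is offered in case the proof of RawES1 produces the
other orientation (row-lead decision D4); the chain is insensitive to it.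
-/

set_option autoImplicit false

noncomputable section

open CongruenceSubgroup ModularCurve AlgebraicCurve
open scoped TensorProduct

namespace Fermat.Agent.S48.Res

open Fermat.Agent.S48.F1 Fermat.Agent.S48.Top

/-- The diamond operator `⟨p⟩^{±1}` on `J₁(M)` (`s = true`: `⟨p⟩`, `s = false`: `⟨p⟩⁻¹`). -/
def diamondS (s : Bool) (M p : ℕ) : Module.End ℤ (J1 M) :=
  if s then diamond1 M (unitOf M p) else diamond1Inv M (unitOf M p)

/-- The diamond operator `⟨p⟩^{±1}` on `J₁(M)[m]`. -/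
def diamondST (s : Bool) (M m p : ℕ) : Module.End ℤ (J1T M m) :=
  if s then diamondT M m (unitOf M p) else diamondInvT M m (unitOf M p)

/-- **RawES1** (port of rows S18 + S37 to `X₁(M)`): RAW Eichler–Shimura with diamond on the
`ℓ`-torsion of `J₁(M)`.  For every prime `p ∤ M ℓ` and every place `A` of `ℚ̄` above `p`:
inertia acts trivially on `J₁(M)[ℓ]`, and every Frobenius `σ` satisfies
`⟨p⟩^{±1} σ² - T_p σ + p = 0`, `T_p = hecke1 M p = α_* β^*`, `⟨p⟩ = diamond1 M p` (on points: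
`[z] ↦ [γ z]`, `γ ∈ Γ₀(M)` with lower right entry `≡ p`). -/
def RawES1Statement (s : Bool) : Prop :=
  ∀ (M ℓ p : ℕ), M ≠ 0 → ℓ.Prime → p.Prime → ¬ p ∣ M * ℓ →
    ∀ A : ValuationSubring (AlgebraicClosure ℚ), A.LiesOverPrime p →
      (∀ σ ∈ A.inertiaSubgroupIn ℚ, ∀ x : J1 M, (ℓ : ℤ) • x = 0 → σ • x = x) ∧
      (∀ σ : AlgebraicClosure ℚ ≃ₐ[ℚ] AlgebraicClosure ℚ, A.IsFrobeniusAt σ p →
        ∀ x : J1 M, (ℓ : ℤ) • x = 0 →
          diamondS s M p (σ • σ • x) - hecke1 M p (σ • x) + (p : ℤ) • x = 0)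

/-- **OCC1** (PACKET + P2 + CHI0 + M4a1 + M4b1 + HCoh1): for every large `ℓ` the eigen-system of
`(f, ε)` occurs in `F ⊗ J₁(M)[ℓ]` for some level `M` with the same prime divisors as `N ℓ`:
a nonzero `v` with `T_p v = d_p ψ(a_p) v`, `⟨p⟩^{±1} v = d_p v`, where `d_p ψ(ε(p)) = p` in `F`
(`d_p = ψ(η(p))⁻¹`, `η = ε ω⁻¹` the nebentypus of `f · E`). -/
def Occ1Statement (s : Bool) : Prop :=
  ∀ (N : ℕ) [NeZero N] (ε : DirichletCharacter ℂ N) (f : CuspForm (Gamma1 N) 1),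
    IsEigen N ε f → ∃ B : ℕ, ∀ ℓ : ℕ, ℓ.Prime → B < ℓ →
      ∀ (F : Type) [Field F] [IsAlgClosed F] [CharP F ℓ] (ψ : Zbar →+* F),
        ∃ (M : ℕ) (a e : ℕ → Zbar) (d : ℕ → F), M ≠ 0 ∧
          (∀ p : ℕ, p.Prime → p ∣ M → p ∣ N * ℓ) ∧
          (∀ p : ℕ, p.Prime → ¬ p ∣ N * ℓ →
            ((a p : Zbar) : ℂ) = ModularFormClass.qCoeff f p ∧
            ((e p : Zbar) : ℂ) = ε (p : ZMod N) ∧ d p * ψ (e p) = (p : F)) ∧
          ∃ v : F ⊗[ℤ] J1T M ℓ, v ≠ 0 ∧ ∀ p : ℕ, p.Prime → ¬ p ∣ N * ℓ →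
            (heckeT M ℓ p).baseChange F v = (d p * ψ (a p)) • v ∧
            (diamondST s M ℓ p).baseChange F v = d p • v

end Fermat.Agent.S48.Res
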