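import Fermat.Agent.S48.Res.Parts
import Fermat.Agent.S48.H888.MAsm

/-!
# S48 / RES (Tower A1) — the chain `RawES1 + OCC1 ⟹ Top.ResidualStatement` (helper168)

Sorry-free.  Uses the abstract assembly `H888.hasFrobModuleDet_of_eigenvector` (helper888) with
`A = J₁(M)[ℓ]`, `T p = ⟨p⟩^{∓1} T_p`, `D p = ⟨p⟩^{∓1}`, the formal properties of `F1/Basic.lean`
(Galois equivariance of `T_p`, `⟨d⟩`; SMOOTH) and LAYER A' `H888.residualStatement_of_frobModule`.
-/

set_option autoImplicit false
set_option linter.style.haveILetI false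

noncomputable section

open CongruenceSubgroup ModularCurve AlgebraicCurve
open scoped TensorProduct

namespace Fermat.Agent.S48.Res

open Fermat.Agent.S48.F1 Fermat.Agent.S48.Top Fermat.Agent.S48.H888

section Sign

variable (s : Bool) (M m p : ℕ)

theorem diamondS_not_diamondS (x : J1 M) : diamondS (!s) M p (diamondS s M p x) = x := by
  cases s <;> simp [diamondS]

theorem coe_diamondST (x : J1T M m) :
    ((diamondST s M m p x : J1T M m) : J1 M) = diamondS s M p (x : J1 M) := by
  cases s <;> simp [diamondST, diamondS]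

theorem diamondST_not_comp : diamondST (!s) M m p ∘ₗ diamondST s M m p = LinearMap.id := by
  ext x
  rw [LinearMap.comp_apply, coe_diamondST, coe_diamondST, diamondS_not_diamondS]
  rfl

attribute [local instance] galoisActionJ1T in
theorem galois_smul_diamondST (σ : AlgebraicClosure ℚ ≃ₐ[ℚ] AlgebraicClosure ℚ)
    (x : J1T M m) : diamondST s M m p (σ • x) = σ • diamondST s M m p x := by
  cases s
  · exact galois_smul_diamondInvT M m (unitOf M p) σ x
  · exact galois_smul_diamondT M m (unitOf M p) σ x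

end Sign

theorem frobModule_of_parts (s : Bool) (hES : RawES1Statement s) (hOcc : Occ1Statement s) :
    FrobModuleStatement := by
  intro N _ ε f hf
  obtain ⟨B, hB⟩ := hOcc N ε f hf
  refine ⟨B, fun ℓ hℓ hBℓ F _ _ _ ψ => ?_⟩
  obtain ⟨M, a, e, d, hM0, hMp, hae, v, hv0, hv⟩ := hB ℓ hℓ hBℓ F ψ
  have hpM : ∀ p : ℕ, p.Prime → ¬ p ∣ N * ℓ → ¬ p ∣ M * ℓ := by
    intro p hp hS hd
    rcases (Nat.Prime.dvd_mul hp).1 hd with h | h
    · exact hS (hMp p hp h)
    · exact hS (h.mul_left N)
  have hd0 : ∀ p : ℕ, p.Prime → ¬ p ∣ N * ℓ → d p ≠ 0 := by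
    intro p hp hS h0
    have h1 := (hae p hp hS).2.2
    rw [h0, zero_mul] at h1
    have h2 : ℓ ∣ p := (CharP.cast_eq_zero_iff F ℓ p).1 h1.symm
    have h3 : ℓ = p := (Nat.prime_dvd_prime_iff_eq hℓ hp).1 h2
    exact hS (h3 ▸ Dvd.intro_left N rfl)
  letI := galoisActionJ1T M ℓ
  refine hasFrobModule1_of_det ε f ℓ ψ a e (fun p hp hS => (hae p hp hS).1)
    (fun p hp hS => (hae p hp hS).2.1) ?_
  refine hasFrobModuleDet_of_eigenvector (A := J1T M ℓ) (N * ℓ) (fun p => ψ (a p))
    (fun p => (d p)⁻¹) (fun p => ψ (e p))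
    (fun p => diamondST (!s) M ℓ p ∘ₗ heckeT M ℓ p)
    (fun p => diamondST (!s) M ℓ p) ?_ ?_ ?_ ?_ ?_ ?_ ?_
  · -- hT
    intro p σ x
    show diamondST (!s) M ℓ p (heckeT M ℓ p (σ • x))
      = σ • diamondST (!s) M ℓ p (heckeT M ℓ p x)
    rw [galois_smul_heckeT, galois_smul_diamondST]
  · -- hD
    intro p σ x
    exact galois_smul_diamondST (!s) M ℓ p σ x
  · -- smooth
    intro x
    obtain ⟨K, hK, hfix⟩ := j1_exists_finite_level_fix_torsion M hℓ.ne_zero (x : J1 M)
      (Pic0.mem_torsion.mp x.2)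
    exact ⟨K, hK, fun σ hσ => Subtype.ext (hfix σ hσ)⟩
  · -- unramified
    intro p hp hS V hV σ hσ x
    exact Subtype.ext ((hES M ℓ p hM0 hℓ hp (hpM p hp hS) V hV).1 σ hσ (x : J1 M)
      (Pic0.mem_torsion.mp x.2))
  · -- Frobenius relation
    intro p hp hS V hV σ hσ x
    apply Subtype.ext
    have h := (hES M ℓ p hM0 hℓ hp (hpM p hp hS) V hV).2 σ hσ (x : J1 M)
      (Pic0.mem_torsion.mp x.2)
    have h2 := congrArg (diamondS (!s) M p) h
    rw [map_add, map_sub, map_zero, diamondS_not_diamondS, map_zsmul] at h2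
    show ((σ • σ • x - (diamondST (!s) M ℓ p ∘ₗ heckeT M ℓ p) (σ • x)
      + (p : ℤ) • diamondST (!s) M ℓ p x : J1T M ℓ) : J1 M) = 0
    rw [AddSubgroup.coe_add, AddSubgroup.coe_sub, AddSubgroup.coe_zsmul, LinearMap.comp_apply,
      coe_diamondST, coe_diamondST]
    exact h2
  · -- p * δ p = e p
    intro p hp hS
    have h1 := (hae p hp hS).2.2
    show (p : F) * (d p)⁻¹ = ψ (e p)
    rw [← h1, mul_comm (d p), mul_assoc, mul_inv_cancel₀ (hd0 p hp hS), mul_one]
  · -- occurrence
    refine ⟨v, hv0, fun p hp hS => ?_⟩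
    obtain ⟨h1, h2⟩ := hv p hp hS
    have h3 : (diamondST (!s) M ℓ p).baseChange F v = (d p)⁻¹ • v := by
      have h4 := congrArg ((diamondST (!s) M ℓ p).baseChange F) h2
      rw [← LinearMap.comp_apply, ← LinearMap.baseChange_comp, diamondST_not_comp,
        LinearMap.baseChange_id, LinearMap.id_apply, map_smul] at h4
      have h5 := congrArg (fun w => (d p)⁻¹ • w) h4
      simp only [smul_smul, inv_mul_cancel₀ (hd0 p hp hS), one_smul] at h5
      exact h5.symm
    refine ⟨?_, h3⟩
    rw [LinearMap.baseChange_comp, LinearMap.comp_apply, h1, map_smul, h3, smul_smul,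
      mul_comm (d p), mul_assoc, mul_inv_cancel₀ (hd0 p hp hS), mul_one]

/-- **The chain of RES**: `RawES1Statement s → Occ1Statement s → Top.ResidualStatement`
(for either orientation `s`). -/
theorem residual_of_parts (s : Bool) (hES : RawES1Statement s) (hOcc : Occ1Statement s) :
    ResidualStatement :=
  residualStatement_of_frobModule (frobModule_of_parts s hES hOcc)

end Fermat.Agent.S48.Res
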