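import Fermat.Agent.S48.Res.PartsOcc
import Fermat.Agent.S48.Res.Chain
import Fermat.Agent.S48.H188.M4a1
import Fermat.Agent.S48.H548.HCoh1
import Fermat.Agent.S29.M4c

/-!
# S48 / RES (Tower A1) — `Eigenclass1 + M4b1 ⟹ Occ1Statement true` (helper168)

Sorry-free.  Port of `S29/M4c.lean` (`M4c_exists_eigenclass_of`) to `Γ₁(M)` with diamonds: the
eigenclass `cl : Γ₁(M) → F` is written in coordinates `cl = ∑ⱼ wⱼ cⱼ` (`cⱼ` with values in `𝔽_ℓ`,
`H188.exists_coords`), `v = ∑ⱼ wⱼ ⊗ κ(cⱼ)`; the tensor lemmas are those of helper92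
(`S29.M4c_tensor_eigen`, `S29.M4c_tensor_ne_zero`).
-/

set_option autoImplicit false
set_option linter.style.haveILetI false
set_option linter.unusedSectionVars false

noncomputable section

open CongruenceSubgroup ModularCurve AlgebraicCurve ModularCurve.Period
open scoped TensorProduct MatrixGroups

namespace Fermat.Agent.S48.Res

open Fermat.Agent.S48.F1 Fermat.Agent.S48.Top Fermat.Agent.S48.H548

section Adapter

variable {M ℓ : ℕ}

theorem isPar1_zero {A : Type*} [AddCommGroup A] : IsPar1 (0 : Additive (Gamma1 M) →+ A) :=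
  ⟨fun _ _ => rfl, fun _ _ => rfl⟩

theorem IsPar1.add {A : Type*} [AddCommGroup A] {c c' : Additive (Gamma1 M) →+ A}
    (h : IsPar1 c) (h' : IsPar1 c') : IsPar1 (c + c') :=
  ⟨fun γ hγ => by
      show c (Additive.ofMul γ) + c' (Additive.ofMul γ) = 0
      rw [h.1 γ hγ, h'.1 γ hγ, add_zero],
    fun γ hγ => by
      show c (Additive.ofMul γ) + c' (Additive.ofMul γ) = 0
      rw [h.2 γ hγ, h'.2 γ hγ, add_zero]⟩

/-- The predicate "`c` is (the underlying function of) a parabolic character". -/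
def IsParFun (M ℓ : ℕ) (c : Additive (Gamma1 M) → ZMod ℓ) : Prop :=
  ∃ φ : Additive (Gamma1 M) →+ ZMod ℓ, ⇑φ = c ∧ IsPar1 φ

open Classical in
/-- Extension of `κ` to plain functions. -/
def kappaFun {V : Type*} [AddCommGroup V] (κ : (Additive (Gamma1 M) →+ ZMod ℓ) → V)
    (c : Additive (Gamma1 M) → ZMod ℓ) : V :=
  if h : IsParFun M ℓ c then κ h.choose else 0

theorem kappaFun_coe {V : Type*} [AddCommGroup V] (κ : (Additive (Gamma1 M) →+ ZMod ℓ) → V)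
    (φ : Additive (Gamma1 M) →+ ZMod ℓ) (hφ : IsPar1 φ) : kappaFun κ ⇑φ = κ φ := by
  have h : IsParFun M ℓ ⇑φ := ⟨φ, rfl, hφ⟩
  rw [kappaFun, dif_pos h]
  congr 1
  exact DFunLike.coe_injective h.choose_spec.1

theorem isParFun_coe (φ : Additive (Gamma1 M) →+ ZMod ℓ) (hφ : IsPar1 φ) :
    IsParFun M ℓ ⇑φ := ⟨φ, rfl, hφ⟩

end Adapter

section Torsion

variable (M ℓ : ℕ)

/-- `J₁(M)[ℓ]` is killed by `ℓ`. -/
theorem j1T_nsmul_eq_zero (x : J1T M ℓ) : ℓ • x = 0 := by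
  apply Subtype.ext
  have h := Pic0.mem_torsion.mp x.2
  have h2 : ((ℓ • x : J1T M ℓ) : J1 M) = (ℓ : ℤ) • (x : J1 M) := by
    rw [natCast_zsmul]
    rfl
  rw [h2, h]
  rfl

end Torsion

theorem diaHom1_injective {M : ℕ} [NeZero M] (a : SL(2, ℤ)) (ha : a ∈ Gamma0 M)
    {A : Type*} [AddCommGroup A] (c : Additive (Gamma1 M) →+ A)
    (h : diaHom1 a ha A c = 0) : c = 0 := by
  refine AddMonoidHom.ext fun γ => ?_
  obtain ⟨γ, rfl⟩ : ∃ γ' : Gamma1 M, Additive.ofMul γ' = γ := ⟨Additive.toMul γ, rfl⟩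
  have ha' : a⁻¹ ∈ Gamma0 M := (Gamma0 M).inv_mem ha
  have h1 := congrArg (fun f : Additive (Gamma1 M) →+ A => f (Additive.ofMul (conj1 a⁻¹ ha' γ))) h
  simp only [diaHom1_apply, AddMonoidHom.zero_apply] at h1
  have h2 : conj1 a ha (conj1 a⁻¹ ha' γ) = γ := by
    apply Subtype.ext
    simp only [coe_conj1]
    group
  rw [h2] at h1
  exact h1

/-- **OCC1 from its parts.** -/
theorem occ1_of_parts (hE : Eigenclass1Statement) (hK : M4b1Statement) :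
    Occ1Statement true := by
  classical
  intro N _ ε f hf
  obtain ⟨B, hB⟩ := hE N ε f hf
  refine ⟨B, fun ℓ hℓ hBℓ F _ _ _ ψ => ?_⟩
  obtain ⟨M, hM, a, e, hMp, hae, cl, hcl0, hclP, hcl⟩ := hB ℓ hℓ hBℓ F ψ
  haveI := hM
  haveI hℓF : Fact ℓ.Prime := ⟨hℓ⟩
  letI : Algebra (ZMod ℓ) F := ZMod.algebra F ℓ
  letI : Module (ZMod ℓ) (J1T M ℓ) :=
    AddCommGroup.zmodModule (n := ℓ) (j1T_nsmul_eq_zero M ℓ)
  obtain ⟨κ, hκadd, hκinj, hκ⟩ := hK M ℓ hℓ
  haveI : Group.FG (Gamma1 M) := by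
    haveI := Fermat.Agent.S48.H188.fg_SL2Z
    infer_instance
  obtain ⟨n, w, cc, hw, hsum, hzero⟩ :=
    Fermat.Agent.S48.H188.exists_coords (k := ZMod ℓ) cl
  have hccP : ∀ j, IsPar1 (cc j) := fun j =>
    ⟨fun γ hγ => hzero _ (hclP.1 γ hγ) j, fun γ hγ => hzero _ (hclP.2 γ hγ) j⟩
  have hcc0 : ∃ j, (⇑(cc j) : Additive (Gamma1 M) → ZMod ℓ) ≠ 0 := by
    by_contra hcon
    rw [not_exists] at hcon
    apply hcl0
    refine AddMonoidHom.ext fun γ => ?_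
    rw [hsum γ]
    refine Finset.sum_eq_zero fun j _ => ?_
    have h0 : (⇑(cc j) : Additive (Gamma1 M) → ZMod ℓ) = 0 := not_not.mp (hcon j)
    rw [show cc j γ = (⇑(cc j) : Additive (Gamma1 M) → ZMod ℓ) γ from rfl, h0]
    simp
  -- the properties of the extended Kummer map
  have hP0 : IsParFun M ℓ 0 := ⟨0, rfl, isPar1_zero⟩
  have hPadd : ∀ c c', IsParFun M ℓ c → IsParFun M ℓ c' → IsParFun M ℓ (c + c') := by
    rintro _ _ ⟨φ, rfl, hφ⟩ ⟨φ', rfl, hφ'⟩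
    exact ⟨φ + φ', rfl, hφ.add hφ'⟩
  have hKadd : ∀ c c', IsParFun M ℓ c → IsParFun M ℓ c' →
      kappaFun κ (c + c') = kappaFun κ c + kappaFun κ c' := by
    rintro _ _ ⟨φ, rfl, hφ⟩ ⟨φ', rfl, hφ'⟩
    have h1 : (⇑φ + ⇑φ' : Additive (Gamma1 M) → ZMod ℓ) = ⇑(φ + φ') := rfl
    rw [h1, kappaFun_coe κ _ (hφ.add hφ'), kappaFun_coe κ _ hφ, kappaFun_coe κ _ hφ',
      hκadd φ φ' hφ hφ']
  have hKinj : ∀ c, IsParFun M ℓ c → kappaFun κ c = 0 → c = 0 := by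
    rintro _ ⟨φ, rfl, hφ⟩ h
    rw [kappaFun_coe κ _ hφ] at h
    rw [hκinj φ hφ h]
    rfl
  -- the eigenvector
  set v : F ⊗[ℤ] J1T M ℓ := ∑ j, w j ⊗ₜ[ℤ] κ (cc j) with hv
  have hv' : v = ∑ j, w j ⊗ₜ[ℤ] kappaFun κ ⇑(cc j) := by
    rw [hv]
    refine Finset.sum_congr rfl fun j _ => ?_
    rw [kappaFun_coe κ _ (hccP j)]
  have hv0 : v ≠ 0 := by
    rw [hv']
    exact Fermat.Agent.S29.M4c_tensor_ne_zero (IsParFun M ℓ) (kappaFun κ) hKinj w
      (fun j => ⇑(cc j)) hw (fun j => isParFun_coe _ (hccP j)) hcc0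
  -- arithmetic of the primes
  have hpM : ∀ p : ℕ, p.Prime → ¬ p ∣ N * ℓ → ¬ p ∣ M := fun p hp hS h => hS (hMp p hp h)
  have hpℓ : ∀ p : ℕ, p.Prime → ¬ p ∣ N * ℓ → p ≠ ℓ := fun p _ hS h =>
    hS (h ▸ Dvd.intro_left N rfl)
  have hpF : ∀ p : ℕ, p.Prime → ¬ p ∣ N * ℓ → (p : F) ≠ 0 := by
    intro p hp hS h0
    have h2 : ℓ ∣ p := (CharP.cast_eq_zero_iff F ℓ p).1 h0
    exact hpℓ p hp hS ((Nat.prime_dvd_prime_iff_eq hℓ hp).1 h2).symm
  have hψe : ∀ p : ℕ, p.Prime → ¬ p ∣ N * ℓ → ψ (e p) ≠ 0 := by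
    intro p hp hS h0
    haveI : Fact p.Prime := ⟨hp⟩
    apply hcl0
    apply diaHom1_injective (sigmaP M p (hpM p hp hS)) (sigmaP_mem (hpM p hp hS))
    refine AddMonoidHom.ext fun γ => ?_
    have h1 := (hcl p (hpM p hp hS) hS γ).2
    rw [h0, zero_mul] at h1
    rcases mul_eq_zero.mp h1 with h2 | h2
    · exact absurd h2 (hpF p hp hS)
    · exact h2
  refine ⟨M, a, e, fun p => (p : F) * (ψ (e p))⁻¹, NeZero.ne M, hMp, fun p hp hS => ?_, v, hv0,
    fun p hp hS => ?_⟩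
  · refine ⟨(hae p hp hS).1, (hae p hp hS).2, ?_⟩
    rw [mul_assoc, inv_mul_cancel₀ (hψe p hp hS), mul_one]
  · haveI : Fact p.Prime := ⟨hp⟩
    have hpM' := hpM p hp hS
    set σ := sigmaP M p hpM' with hσ
    have hσm : σ ∈ Gamma0 M := sigmaP_mem hpM'
    -- `δ = ψ(e p) / p`, the eigenvalue of `diaHom1 σ`
    set δ : F := ψ (e p) * (p : F)⁻¹ with hδ
    have hδ0 : δ ≠ 0 := mul_ne_zero (hψe p hp hS) (inv_ne_zero (hpF p hp hS))
    have hδinv : δ⁻¹ = (p : F) * (ψ (e p))⁻¹ := by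
      rw [hδ, mul_inv, inv_inv, mul_comm]
    have hdia : ∀ γ : Additive (Gamma1 M), diaHom1 σ hσm F cl γ = δ * cl γ := by
      intro γ
      have h1 := (hcl p hpM' hS γ).2
      rw [hδ, mul_assoc, mul_comm ((p : F)⁻¹), ← mul_assoc, ← h1, mul_comm (p : F), mul_assoc,
        mul_inv_cancel₀ (hpF p hp hS), mul_one]
    -- coordinates of the identities
    have hid1 : ∀ γ : Additive (Gamma1 M),
        ∑ j, w j * algebraMap (ZMod ℓ) F (diaHom1 σ hσm (ZMod ℓ) (cc j) γ)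
          = δ * ∑ j, w j * algebraMap (ZMod ℓ) F (cc j γ) := by
      intro γ
      obtain ⟨γ, rfl⟩ : ∃ γ' : Gamma1 M, Additive.ofMul γ' = γ := ⟨Additive.toMul γ, rfl⟩
      rw [← hsum, ← hdia, diaHom1_apply, hsum]
      rfl
    have hid2 : ∀ γ : Additive (Gamma1 M),
        ∑ j, w j * algebraMap (ZMod ℓ) F (heckeHom1 p hpM' (ZMod ℓ) (cc j) γ)
          = ψ (a p) * ∑ j, w j * algebraMap (ZMod ℓ) F (cc j γ) := by
      intro γ
      obtain ⟨γ, rfl⟩ : ∃ γ' : Gamma1 M, Additive.ofMul γ' = γ := ⟨Additive.toMul γ, rfl⟩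
      rw [← hsum, ← (hcl p hpM' hS _).1, heckeHom1_apply]
      simp only [heckeHom1_apply, map_sum, Finset.mul_sum]
      rw [Finset.sum_comm]
      refine Finset.sum_congr rfl fun x _ => ?_
      rw [hsum]
    have hdP : ∀ j, IsPar1 (diaHom1 σ hσm (ZMod ℓ) (cc j)) := fun j =>
      ⟨isParabolicHom_diaHom1 σ hσm _ (hccP j).1, diaHom1_finOrder σ hσm _ (hccP j).2⟩
    have hTP : ∀ j, IsPar1 (heckeHom1 p hpM' (ZMod ℓ) (cc j)) := fun j =>
      ⟨isParabolicHom_heckeHom1 hpM' _ (hccP j).1, heckeHom1_finOrder hpM' _ (hccP j).2⟩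
    -- `v' = ∑ w ⊗ κ (cc ∘ conj σ) = δ • v`
    have hv1 : (∑ j, w j ⊗ₜ[ℤ] κ (diaHom1 σ hσm (ZMod ℓ) (cc j)) : F ⊗[ℤ] J1T M ℓ) = δ • v := by
      rw [hv']
      have := Fermat.Agent.S29.M4c_tensor_eigen (IsParFun M ℓ) (kappaFun κ) hP0 hPadd hKadd w
        (fun j => ⇑(cc j)) (fun j => ⇑(diaHom1 σ hσm (ZMod ℓ) (cc j)))
        (fun j => isParFun_coe _ (hccP j)) (fun j => isParFun_coe _ (hdP j)) δ hid1
      rw [← this]
      refine Finset.sum_congr rfl fun j _ => ?_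
      rw [kappaFun_coe κ _ (hdP j)]
    have hv2 : (∑ j, w j ⊗ₜ[ℤ] κ (heckeHom1 p hpM' (ZMod ℓ) (cc j)) : F ⊗[ℤ] J1T M ℓ)
        = ψ (a p) • v := by
      rw [hv']
      have := Fermat.Agent.S29.M4c_tensor_eigen (IsParFun M ℓ) (kappaFun κ) hP0 hPadd hKadd w
        (fun j => ⇑(cc j)) (fun j => ⇑(heckeHom1 p hpM' (ZMod ℓ) (cc j)))
        (fun j => isParFun_coe _ (hccP j)) (fun j => isParFun_coe _ (hTP j)) (ψ (a p)) hid2
      rw [← this]
      refine Finset.sum_congr rfl fun j _ => ?_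
      rw [kappaFun_coe κ _ (hTP j)]
    -- apply the operators to `δ • v`
    have hT : (heckeT M ℓ p).baseChange F (δ • v) = ψ (a p) • v := by
      rw [← hv1, map_sum, ← hv2]
      refine Finset.sum_congr rfl fun j _ => ?_
      rw [LinearMap.baseChange_tmul, (hκ p hpM' (hpℓ p hp hS) (cc j) (hccP j)).1]
    have hD : (diamondT M ℓ (unitOf M p)).baseChange F (δ • v) = v := by
      rw [← hv1, map_sum, hv]
      refine Finset.sum_congr rfl fun j _ => ?_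
      rw [LinearMap.baseChange_tmul, (hκ p hpM' (hpℓ p hp hS) (cc j) (hccP j)).2]
    rw [map_smul] at hT hD
    constructor
    · have h1 := congrArg (fun x => δ⁻¹ • x) hT
      simp only [smul_smul, inv_mul_cancel₀ hδ0, one_smul] at h1
      rw [h1, hδinv]
    · have h1 := congrArg (fun x => δ⁻¹ • x) hD
      simp only [smul_smul, inv_mul_cancel₀ hδ0, one_smul] at h1
      show (diamondST true M ℓ p).baseChange F v = _
      have h2 : diamondST true M ℓ p = diamondT M ℓ (unitOf M p) := by simp [diamondST]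
      rw [h2, h1, hδinv]

/-- **RES from its three deep inputs.** -/
theorem residual_of_three (hES : RawES1Statement true) (hE : Eigenclass1Statement)
    (hK : M4b1Statement) : ResidualStatement :=
  residual_of_parts true hES (occ1_of_parts hE hK)

end Fermat.Agent.S48.Res
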