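import Fermat.Agent.S48.Res.Twist

/-!
# S48 / RES: the chain  `ES1 + COH ⟹ Top.ResidualStatement`  (helper16; file `Res/ChainES.lean`)

* `frobDet_congr`, `frobDet_mono` : bookkeeping;
* `es1Plus_of_minus : ES1Minus → ES1Plus` (twist by the nebentypus character);
* `frobModule_of_plus : ES1Plus → CohEigStatement → H888.FrobModuleStatement`;
* `residual_of_plus`, `residual_of_minus` : `… → Top.ResidualStatement`.

So the row S48 needs exactly: `CohEigStatement` (cohomology side) and ONE of `ES1Plus`,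
`ES1Minus` (arithmetic tower for `Γ₁(M)`).
-/

set_option autoImplicit false

noncomputable section

namespace Fermat.Agent.S48.Res

open CongruenceSubgroup
open Fermat.Agent.S29 Fermat.Agent.S48.Top Fermat.Agent.S48.H888

variable {F : Type} [Field F]

/-- Only the values at primes `p ∤ S` matter. -/
theorem frobDet_congr {S : ℕ} {a e a' e' : ℕ → F}
    (h : HasFrobModuleDet F S a e)
    (hae : ∀ p : ℕ, p.Prime → ¬ p ∣ S → a p = a' p ∧ e p = e' p) :
    HasFrobModuleDet F S a' e' := by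
  obtain ⟨V, iA, iM, ρ, hnt, hsm, hur, hfq⟩ := h
  refine ⟨V, iA, iM, ρ, hnt, hsm, hur, fun p hp hS A hA σ hσ x => ?_⟩
  have h0 := hfq p hp hS A hA σ hσ x
  rw [(hae p hp hS).1, (hae p hp hS).2] at h0
  exact h0

/-- Enlarging the exceptional set. -/
theorem frobDet_mono {S S' : ℕ} {a e : ℕ → F}
    (h : HasFrobModuleDet F S a e)
    (hS : ∀ p : ℕ, p.Prime → p ∣ S → p ∣ S') :
    HasFrobModuleDet F S' a e := by
  obtain ⟨V, iA, iM, ρ, hnt, hsm, hur, hfq⟩ := h
  refine ⟨V, iA, iM, ρ, hnt, hsm, fun p hp hp' A hA σ hσ => ?_,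
    fun p hp hp' A hA σ hσ x => ?_⟩
  · exact hur p hp (fun hd => hp' (hS p hp hd)) A hA σ hσ
  · exact hfq p hp (fun hd => hp' (hS p hp hd)) A hA σ hσ x

/-- **Sign independence**: the `-` form of the arithmetic tower implies the `+` form. -/
theorem es1Plus_of_minus (h : ES1Minus) : ES1Plus := by
  intro M _ ℓ hℓ F _ _ _ cl α δ hcl
  have h1 := frobDet_twist M δ (fun p _ hpM => Dvd.dvd.mul_right hpM ℓ)
    (h M ℓ hℓ F cl α δ hcl)
  refine frobDet_congr h1 (fun p hp hS => ?_)
  have hpM : ¬ p ∣ M := fun hd => hS (Dvd.dvd.mul_right hd ℓ)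
  have hcop : Nat.Coprime p M := (Nat.Prime.coprime_iff_not_dvd hp).2 hpM
  have hne := natVal_ne_zero δ hcop
  constructor
  · field_simp
  · field_simp

/-- **The module layer of RES** from the arithmetic tower (`+` form) and the cohomology side. -/
theorem frobModule_of_plus (hES : ES1Plus) (hCoh : CohEigStatement) : FrobModuleStatement := by
  intro N _ ε f hf
  obtain ⟨B, hB⟩ := hCoh N ε f hf
  refine ⟨B, fun ℓ hℓ hBℓ F _ _ _ ψ => ?_⟩
  obtain ⟨M, hM, cl, α, δ, hprimes, hcl, hval⟩ := hB ℓ hℓ hBℓ F ψ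
  have := hM
  obtain ⟨V, iA, iM, ρ, hnt, hsm, hur, hfq⟩ :=
    frobDet_mono (S' := N * ℓ) (hES M ℓ hℓ F cl α δ hcl) (fun p hp hd => by
      rcases (Nat.Prime.dvd_mul hp).1 hd with h | h
      · exact hprimes p hp h
      · exact Dvd.dvd.mul_left h N)
  refine ⟨V, iA, iM, ρ, hnt, hsm, hur, fun p hp hS => ?_⟩
  obtain ⟨a, e, ha, he, hα, hδ⟩ := hval p hp hS
  refine ⟨a, e, ha, he, fun A hA σ hσ x => ?_⟩
  have h0 := hfq p hp hS A hA σ hσ x
  simp only [hα, hδ] at h0
  exact h0

/-- **RES from the `+` form.** -/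
theorem residual_of_plus (hES : ES1Plus) (hCoh : CohEigStatement) : ResidualStatement :=
  residualStatement_of_frobModule (frobModule_of_plus hES hCoh)

/-- **RES from the `-` form.** -/
theorem residual_of_minus (hES : ES1Minus) (hCoh : CohEigStatement) : ResidualStatement :=
  residual_of_plus (es1Plus_of_minus hES) hCoh

end Fermat.Agent.S48.Res
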