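import Fermat.Agent.S48.Res.ChainOcc
import Fermat.Agent.S48.Res.ChainES

/-!
# S48 / RES (Tower A1) — `RawES1 + M4b1 ⟹ ES1Plus` (helper168)

Bridge between the two halves of the RES architecture:

* helper16's top interface (`Res/Spec.lean`, `Res/ChainES.lean`):
    `residual_of_plus : ES1Plus → CohEigStatement → Top.ResidualStatement`;
* the concrete arithmetic tower on `J₁(M) = Pic⁰(ℚ̄ · F1 M)` (`Res/Parts.lean`, `Res/PartsOcc.lean`):
    `RawES1Statement true` (raw Eichler–Shimura with diamond) and `M4b1Statement` (Kummer map).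

`es1Plus_of_parts : RawES1Statement true → M4b1Statement → ES1Plus`, hence

  `residual_of_coh : RawES1Statement true → M4b1Statement → CohEigStatement → Top.ResidualStatement`.

Sorry-free.
-/

set_option autoImplicit false
set_option linter.style.haveILetI false
set_option linter.unusedSectionVars false

noncomputable section

open CongruenceSubgroup ModularCurve AlgebraicCurve ModularCurve.Period
open scoped TensorProduct MatrixGroups

namespace Fermat.Agent.S48.Res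

open Fermat.Agent.S48.F1 Fermat.Agent.S48.Top Fermat.Agent.S48.H548 Fermat.Agent.S48.H888

theorem lowerUnit_sigmaP {M : ℕ} [NeZero M] {p : ℕ} [Fact p.Prime] (hpM : ¬ p ∣ M)
    (h : Nat.Coprime p M) :
    lowerUnit (sigmaP M p hpM) (sigmaP_mem hpM) = ZMod.unitOfCoprime p h := by
  apply Units.ext
  rw [coe_lowerUnit, sigmaP_lower, ZMod.coe_unitOfCoprime]

/-- The Kummer classes of an eigenclass form an eigenvector in `F ⊗ J₁(M)[ℓ]`. -/
theorem exists_eigenvector_of_eigenclass (hK : M4b1Statement) {M : ℕ} [NeZero M] {ℓ : ℕ}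
    (hℓ : ℓ.Prime) {F : Type} [Field F] [CharP F ℓ] (cl : Additive (Gamma1 M) →+ F)
    (α : ℕ → F) (δ : (ZMod M)ˣ →* Fˣ) (hcl : IsEigenclass M cl α δ) :
    ∃ v : F ⊗[ℤ] J1T M ℓ, v ≠ 0 ∧ ∀ p : ℕ, p.Prime → ¬ p ∣ M * ℓ →
      (heckeT M ℓ p).baseChange F v = ((natVal δ p)⁻¹ * α p) • v ∧
      (diamondT M ℓ (unitOf M p)).baseChange F v = (natVal δ p)⁻¹ • v := by
  classical
  haveI hℓF : Fact ℓ.Prime := ⟨hℓ⟩
  letI : Algebra (ZMod ℓ) F := ZMod.algebra F ℓ
  letI : Module (ZMod ℓ) (J1T M ℓ) :=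
    AddCommGroup.zmodModule (n := ℓ) (j1T_nsmul_eq_zero M ℓ)
  obtain ⟨κ, hκadd, hκinj, hκ⟩ := hK M ℓ hℓ
  haveI : Group.FG (Gamma1 M) := by
    haveI := Fermat.Agent.S48.H188.fg_SL2Z
    infer_instance
  obtain ⟨n, w, cc, hw, hsum, hzero⟩ :=
    Fermat.Agent.S48.H188.exists_coords (k := ZMod ℓ) cl
  have hccP : ∀ j, IsPar1 (cc j) := fun j =>
    ⟨fun γ hγ => hzero _ (hcl.parabolic γ hγ) j, fun γ hγ => hzero _ (hcl.finOrder γ hγ) j⟩
  have hcc0 : ∃ j, (⇑(cc j) : Additive (Gamma1 M) → ZMod ℓ) ≠ 0 := by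
    by_contra hcon
    rw [not_exists] at hcon
    apply hcl.ne_zero
    refine AddMonoidHom.ext fun γ => ?_
    rw [hsum γ]
    refine Finset.sum_eq_zero fun j _ => ?_
    have h0 : (⇑(cc j) : Additive (Gamma1 M) → ZMod ℓ) = 0 := not_not.mp (hcon j)
    rw [show cc j γ = (⇑(cc j) : Additive (Gamma1 M) → ZMod ℓ) γ from rfl, h0]
    simp
  have hP0 : IsParFun M ℓ 0 := ⟨0, rfl, isPar1_zero⟩
  have hPadd : ∀ c c', IsParFun M ℓ c → IsParFun M ℓ c' → IsParFun M ℓ (c + c') := by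
    rintro _ _ ⟨φ, rfl, hφ⟩ ⟨φ', rfl, hφ'⟩
    exact ⟨φ + φ', rfl, hφ.add hφ'⟩
  have hKadd : ∀ c c', IsParFun M ℓ c → IsParFun M ℓ c' →
      kappaFun κ (c + c') = kappaFun κ c + kappaFun κ c' := by
    rintro _ _ ⟨φ, rfl, hφ⟩ ⟨φ', rfl, hφ'⟩
    have h1 : (⇑φ + ⇑φ' : Additive (Gamma1 M) → ZMod ℓ) = ⇑(φ + φ') := rfl
    rw [h1, kappaFun_coe κ _ (hφ.add hφ'), kappaFun_coe κ _ hφ, kappaFun_coe κ _ hφ',
      hκadd φ φ' hφ hφ']
  have hKinj : ∀ c, IsParFun M ℓ c → kappaFun κ c = 0 → c = 0 := by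
    rintro _ ⟨φ, rfl, hφ⟩ h
    rw [kappaFun_coe κ _ hφ] at h
    rw [hκinj φ hφ h]
    rfl
  set v : F ⊗[ℤ] J1T M ℓ := ∑ j, w j ⊗ₜ[ℤ] κ (cc j) with hv
  have hv' : v = ∑ j, w j ⊗ₜ[ℤ] kappaFun κ ⇑(cc j) := by
    rw [hv]
    refine Finset.sum_congr rfl fun j _ => ?_
    rw [kappaFun_coe κ _ (hccP j)]
  have hv0 : v ≠ 0 := by
    rw [hv']
    exact Fermat.Agent.S29.M4c_tensor_ne_zero (IsParFun M ℓ) (kappaFun κ) hKinj w
      (fun j => ⇑(cc j)) hw (fun j => isParFun_coe _ (hccP j)) hcc0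
  refine ⟨v, hv0, fun p hp hS => ?_⟩
  haveI : Fact p.Prime := ⟨hp⟩
  have hpM' : ¬ p ∣ M := fun h => hS (h.mul_right ℓ)
  have hpℓ : p ≠ ℓ := fun h => hS (h ▸ Dvd.intro_left M rfl)
  have hcop : Nat.Coprime p M := (Nat.Prime.coprime_iff_not_dvd hp).2 hpM'
  set σ := sigmaP M p hpM' with hσ
  have hσm : σ ∈ Gamma0 M := sigmaP_mem hpM'
  set d : F := natVal δ p with hd
  have hd0 : d ≠ 0 := natVal_ne_zero δ hcop
  have hdia : ∀ γ : Additive (Gamma1 M), diaHom1 σ hσm F cl γ = d * cl γ := by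
    intro γ
    rw [hcl.diamond σ hσm γ, hd, natVal_of_coprime δ hcop, lowerUnit_sigmaP hpM' hcop]
  have hid1 : ∀ γ : Additive (Gamma1 M),
      ∑ j, w j * algebraMap (ZMod ℓ) F (diaHom1 σ hσm (ZMod ℓ) (cc j) γ)
        = d * ∑ j, w j * algebraMap (ZMod ℓ) F (cc j γ) := by
    intro γ
    obtain ⟨γ, rfl⟩ : ∃ γ' : Gamma1 M, Additive.ofMul γ' = γ := ⟨Additive.toMul γ, rfl⟩
    rw [← hsum, ← hdia, diaHom1_apply, hsum]
    rfl
  have hid2 : ∀ γ : Additive (Gamma1 M),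
      ∑ j, w j * algebraMap (ZMod ℓ) F (heckeHom1 p hpM' (ZMod ℓ) (cc j) γ)
        = α p * ∑ j, w j * algebraMap (ZMod ℓ) F (cc j γ) := by
    intro γ
    obtain ⟨γ, rfl⟩ : ∃ γ' : Gamma1 M, Additive.ofMul γ' = γ := ⟨Additive.toMul γ, rfl⟩
    rw [← hsum, ← hcl.hecke p hpM' _, heckeHom1_apply]
    simp only [heckeHom1_apply, map_sum, Finset.mul_sum]
    rw [Finset.sum_comm]
    refine Finset.sum_congr rfl fun x _ => ?_
    rw [hsum]
  have hdP : ∀ j, IsPar1 (diaHom1 σ hσm (ZMod ℓ) (cc j)) := fun j =>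
    ⟨isParabolicHom_diaHom1 σ hσm _ (hccP j).1, diaHom1_finOrder σ hσm _ (hccP j).2⟩
  have hTP : ∀ j, IsPar1 (heckeHom1 p hpM' (ZMod ℓ) (cc j)) := fun j =>
    ⟨isParabolicHom_heckeHom1 hpM' _ (hccP j).1, heckeHom1_finOrder hpM' _ (hccP j).2⟩
  have hv1 : (∑ j, w j ⊗ₜ[ℤ] κ (diaHom1 σ hσm (ZMod ℓ) (cc j)) : F ⊗[ℤ] J1T M ℓ) = d • v := by
    rw [hv']
    have := Fermat.Agent.S29.M4c_tensor_eigen (IsParFun M ℓ) (kappaFun κ) hP0 hPadd hKadd w
      (fun j => ⇑(cc j)) (fun j => ⇑(diaHom1 σ hσm (ZMod ℓ) (cc j)))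
      (fun j => isParFun_coe _ (hccP j)) (fun j => isParFun_coe _ (hdP j)) d hid1
    rw [← this]
    refine Finset.sum_congr rfl fun j _ => ?_
    rw [kappaFun_coe κ _ (hdP j)]
  have hv2 : (∑ j, w j ⊗ₜ[ℤ] κ (heckeHom1 p hpM' (ZMod ℓ) (cc j)) : F ⊗[ℤ] J1T M ℓ)
      = α p • v := by
    rw [hv']
    have := Fermat.Agent.S29.M4c_tensor_eigen (IsParFun M ℓ) (kappaFun κ) hP0 hPadd hKadd w
      (fun j => ⇑(cc j)) (fun j => ⇑(heckeHom1 p hpM' (ZMod ℓ) (cc j)))
      (fun j => isParFun_coe _ (hccP j)) (fun j => isParFun_coe _ (hTP j)) (α p) hid2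
    rw [← this]
    refine Finset.sum_congr rfl fun j _ => ?_
    rw [kappaFun_coe κ _ (hTP j)]
  have hT : (heckeT M ℓ p).baseChange F (d • v) = α p • v := by
    rw [← hv1, map_sum, ← hv2]
    refine Finset.sum_congr rfl fun j _ => ?_
    rw [LinearMap.baseChange_tmul, (hκ p hpM' hpℓ (cc j) (hccP j)).1]
  have hD : (diamondT M ℓ (unitOf M p)).baseChange F (d • v) = v := by
    rw [← hv1, map_sum, hv]
    refine Finset.sum_congr rfl fun j _ => ?_
    rw [LinearMap.baseChange_tmul, (hκ p hpM' hpℓ (cc j) (hccP j)).2]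
  rw [map_smul] at hT hD
  constructor
  · have h1 := congrArg (fun x => d⁻¹ • x) hT
    simp only [smul_smul, inv_mul_cancel₀ hd0, one_smul] at h1
    exact h1
  · have h1 := congrArg (fun x => d⁻¹ • x) hD
    simp only [smul_smul, inv_mul_cancel₀ hd0, one_smul] at h1
    exact h1

/-- **The arithmetic tower**: raw Eichler–Shimura with diamond on `J₁(M)[ℓ]` and the Kummer map
give helper16's `ES1Plus`. -/
theorem es1Plus_of_parts (hES : RawES1Statement true) (hK : M4b1Statement) : ES1Plus := by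
  intro M _ ℓ hℓ F _ _ _ cl α δ hcl
  obtain ⟨v, hv0, hv⟩ := exists_eigenvector_of_eigenclass hK hℓ cl α δ hcl
  have hcop : ∀ p : ℕ, p.Prime → ¬ p ∣ M * ℓ → Nat.Coprime p M := fun p hp hS =>
    (Nat.Prime.coprime_iff_not_dvd hp).2 fun h => hS (h.mul_right ℓ)
  letI := galoisActionJ1T M ℓ
  refine hasFrobModuleDet_of_eigenvector (A := J1T M ℓ) (M * ℓ) α
    (fun p => natVal δ p) (fun p => (p : F) * natVal δ p)
    (fun p => diamondST false M ℓ p ∘ₗ heckeT M ℓ p)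
    (fun p => diamondST false M ℓ p) ?_ ?_ ?_ ?_ ?_ ?_ ?_
  · intro p σ x
    show diamondST false M ℓ p (heckeT M ℓ p (σ • x))
      = σ • diamondST false M ℓ p (heckeT M ℓ p x)
    rw [galois_smul_heckeT, galois_smul_diamondST]
  · intro p σ x
    exact galois_smul_diamondST false M ℓ p σ x
  · intro x
    obtain ⟨K, hK', hfix⟩ := j1_exists_finite_level_fix_torsion M hℓ.ne_zero (x : J1 M)
      (Pic0.mem_torsion.mp x.2)
    exact ⟨K, hK', fun σ hσ => Subtype.ext (hfix σ hσ)⟩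
  · intro p hp hS V hV σ hσ x
    exact Subtype.ext ((hES M ℓ p (NeZero.ne M) hℓ hp hS V hV).1 σ hσ (x : J1 M)
      (Pic0.mem_torsion.mp x.2))
  · intro p hp hS V hV σ hσ x
    apply Subtype.ext
    have h := (hES M ℓ p (NeZero.ne M) hℓ hp hS V hV).2 σ hσ (x : J1 M)
      (Pic0.mem_torsion.mp x.2)
    have h2 := congrArg (diamondS false M p) h
    have h3 := diamondS_not_diamondS true M p
    simp only [Bool.not_true] at h3
    rw [map_add, map_sub, map_zero, h3, map_zsmul] at h2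
    show ((σ • σ • x - (diamondST false M ℓ p ∘ₗ heckeT M ℓ p) (σ • x)
      + (p : ℤ) • diamondST false M ℓ p x : J1T M ℓ) : J1 M) = 0
    rw [AddSubgroup.coe_add, AddSubgroup.coe_sub, AddSubgroup.coe_zsmul, LinearMap.comp_apply,
      coe_diamondST, coe_diamondST]
    exact h2
  · intro p _ _
    rfl
  · refine ⟨v, hv0, fun p hp hS => ?_⟩
    obtain ⟨h1, h2⟩ := hv p hp hS
    have hd0 : natVal δ p ≠ 0 := natVal_ne_zero δ (hcop p hp hS)
    have h3 : (diamondST false M ℓ p).baseChange F v = natVal δ p • v := by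
      have h4 := congrArg ((diamondST false M ℓ p).baseChange F) h2
      have h5 : diamondST false M ℓ p ∘ₗ diamondT M ℓ (unitOf M p) = LinearMap.id := by
        have := diamondST_not_comp true M ℓ p
        simpa [diamondST] using this
      rw [← LinearMap.comp_apply, ← LinearMap.baseChange_comp, h5,
        LinearMap.baseChange_id, LinearMap.id_apply, map_smul] at h4
      have h6 := congrArg (fun w => natVal δ p • w) h4
      simp only [smul_smul, mul_inv_cancel₀ hd0, one_smul] at h6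
      exact h6.symm
    refine ⟨?_, h3⟩
    rw [LinearMap.baseChange_comp, LinearMap.comp_apply, h1, map_smul, h3, smul_smul,
      mul_comm ((natVal δ p)⁻¹), mul_assoc, inv_mul_cancel₀ hd0, mul_one]

/-- **RES** from raw Eichler–Shimura on `J₁(M)[ℓ]`, the Kummer map and the cohomology side. -/
theorem residual_of_coh (hES : RawES1Statement true) (hK : M4b1Statement)
    (hCoh : CohEigStatement) : ResidualStatement :=
  residual_of_plus (es1Plus_of_parts hES hK) hCoh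

end Fermat.Agent.S48.Res
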