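import Fermat.Agent.S48.Res.Parts
import Fermat.Agent.S48.H548.Per1Transfer
import Fermat.Prelude.Def_ModularCurve_PeriodMap

/-!
# S48 / RES (Tower A1) — the inputs of `Occ1Statement true`, as `Prop`s (helper168)

  `Res.occ1_of_parts : Eigenclass1Statement → M4b1Statement → Occ1Statement true`

is PROVED in `Fermat/Agent/S48/Res/ChainOcc.lean` (sorry-free).

* `Eigenclass1Statement` = node M4a1 applied to `g₀ = h · E` (PACKET + P2-EIS + TEICH + CHI0 +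
  `H548.exists_eigenclass_mul`): for every large `ℓ` a nonzero parabolic eigenclass
  `cl : Γ₁(M) → F` for `T_p` (`H548.heckeHom1`, standard coset representatives) with eigenvalue
  `ψ(a_p)` and with `p · cl(σ γ σ⁻¹) = ψ(ε(p)) cl(γ)` (`σ = H548.sigmaP M p ∈ Γ₀(M)`, lower right
  entry `≡ p`).
* `M4b1Statement` = the Kummer map `κ : Hom_par(Γ₁(M), ℤ/ℓ) → J₁(M)[ℓ]` (port of S29 `M4b`):
  additive, injective, and (orientation: `coord/S48-F1.md` §3(d))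
    `T_p (κ (c ∘ conj σ)) = κ (T_p c)`,   `⟨p⟩ (κ (c ∘ conj σ)) = κ c`,
  where `T_p = heckeT M ℓ p = α_* β^*` and `⟨p⟩ = diamondT M ℓ p` on the left hand sides.
  Proof sketch: `U_c` Kummer function of `c` (`U_c(γ z) = ζ^{c γ} U_c(z)`, `κ c = [div(U_c^ℓ)/ℓ]`);
  `U_c ∘ σ` is a Kummer function of `c ∘ conj σ` and `(f ↦ f ∘ σ) = diamondAut p⁻¹`;
  `Nm_α (β U^ℓ) = ∏ U^ℓ ∘ (diag(p,1) γᵢ)`, and `Γ₁ diag(p,1) Γ₁ = σ⁻¹ · Γ₁ diag(1,p) Γ₁`.
-/

set_option autoImplicit false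

noncomputable section

open CongruenceSubgroup ModularCurve AlgebraicCurve ModularCurve.Period
open scoped TensorProduct MatrixGroups

namespace Fermat.Agent.S48.Res

open Fermat.Agent.S48.F1 Fermat.Agent.S48.Top Fermat.Agent.S48.H548

/-- Parabolic additive characters of `Γ₁(M)` vanishing on the elements of finite order. -/
def IsPar1 {M : ℕ} {A : Type*} [AddCommGroup A] (c : Additive (Gamma1 M) →+ A) : Prop :=
  IsParabolicHom (Gamma1 M) c ∧ ∀ γ : Gamma1 M, IsOfFinOrder γ → c (Additive.ofMul γ) = 0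

/-- **EIGENCLASS1** (node M4a1 for `g₀ = h · E`, all inputs plugged in). -/
def Eigenclass1Statement : Prop :=
  ∀ (N : ℕ) [NeZero N] (ε : DirichletCharacter ℂ N) (f : CuspForm (Gamma1 N) 1),
    IsEigen N ε f → ∃ B : ℕ, ∀ ℓ : ℕ, ℓ.Prime → B < ℓ →
      ∀ (F : Type) [Field F] [IsAlgClosed F] [CharP F ℓ] (ψ : Zbar →+* F),
        ∃ (M : ℕ) (_ : NeZero M) (a e : ℕ → Zbar),
          (∀ p : ℕ, p.Prime → p ∣ M → p ∣ N * ℓ) ∧
          (∀ p : ℕ, p.Prime → ¬ p ∣ N * ℓ →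
            ((a p : Zbar) : ℂ) = ModularFormClass.qCoeff f p ∧
            ((e p : Zbar) : ℂ) = ε (p : ZMod N)) ∧
          ∃ cl : Additive (Gamma1 M) →+ F, cl ≠ 0 ∧ IsPar1 cl ∧
            ∀ (p : ℕ) [Fact p.Prime] (hpM : ¬ p ∣ M), ¬ p ∣ N * ℓ →
              ∀ γ : Additive (Gamma1 M),
                heckeHom1 p hpM F cl γ = ψ (a p) * cl γ ∧
                (p : F) * diaHom1 (sigmaP M p hpM) (sigmaP_mem hpM) F cl γ = ψ (e p) * cl γ

/-- **M4b1** (the Kummer map for `Γ₁(M)`, with its Hecke and diamond equivariance). -/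
def M4b1Statement : Prop :=
  ∀ (M ℓ : ℕ) [NeZero M], ℓ.Prime →
    ∃ κ : (Additive (Gamma1 M) →+ ZMod ℓ) → J1T M ℓ,
      (∀ c c', IsPar1 c → IsPar1 c' → κ (c + c') = κ c + κ c') ∧
      (∀ c, IsPar1 c → κ c = 0 → c = 0) ∧
      ∀ (p : ℕ) [Fact p.Prime] (hpM : ¬ p ∣ M), p ≠ ℓ → ∀ c, IsPar1 c →
        heckeT M ℓ p (κ (diaHom1 (sigmaP M p hpM) (sigmaP_mem hpM) (ZMod ℓ) c))
            = κ (heckeHom1 p hpM (ZMod ℓ) c) ∧
          diamondT M ℓ (unitOf M p)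
            (κ (diaHom1 (sigmaP M p hpM) (sigmaP_mem hpM) (ZMod ℓ) c)) = κ c

end Fermat.Agent.S48.Res
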