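import Fermat.Agent.S48.H888.MAsm
import Fermat.Agent.S48.H548.M4a1Inst

/-!
# S48 / RES (= TOWER A1): top interface of the residual tower (architect of RES-ASM: helper16)

`Top.ResidualStatement` is assembled from TWO inputs:

* `CohEigStatement` (cohomology side, NO arithmetic): for `ℓ > B` the mod-`ℓ` eigensystem of `f · E`
  occurs in the parabolic cohomology `Hom_par(Γ₁(M), F)`, `M` with the same primes as `N ℓ`
  (pieces PACKET `H228`, P2-EIS `H796/H788`, CHI0 + M4a1 `H548/H188`; assembler helper948).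
* `ES1Plus` or `ES1Minus` (arithmetic side = Eichler–Shimura for `Γ₁(M)` mod `ℓ`): every parabolic
  Hecke eigenclass `cl : Γ₁(M) → F` (operators `H548.heckeHom1`, `H548.diaHom1`) has an attached
  Frobenius module (`H888.HasFrobModuleDet`).  Two sign conventions are accepted; the chain
  removes the difference by a twist with the Galois character of the nebentypus
  (`Res/Twist.lean`), so the tower may prove WHICHEVER form comes out of its construction:

  `ES1Plus`  : `Frob_p² - α_p Frob_p + p δ_p = 0`,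
  `ES1Minus` : `Frob_p² - (α_p / δ_p) Frob_p + p / δ_p = 0`,

  where `T_p cl = α_p cl` and `⟨a⟩ cl = δ(a₁₁) cl` (`a ∈ Γ₀(M)`, `a₁₁` = lower right entry).

The chain is `Res/Chain.lean`:  `residual_of_plus`, `residual_of_minus`.
Everything here is a definition or a `Prop`; nothing is assumed.
-/

set_option autoImplicit false

noncomputable section

namespace Fermat.Agent.S48.Res

open CongruenceSubgroup ModularCurve.Period
open scoped MatrixGroups
open Fermat.Agent.S48.Top Fermat.Agent.S48.H888 Fermat.Agent.S48.H548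

/-- The lower right entry of `a ∈ Γ₀(M)` as a unit of `ZMod M`. -/
def lowerUnit {M : ℕ} (a : SL(2, ℤ)) (ha : a ∈ Gamma0 M) : (ZMod M)ˣ where
  val := ((a 1 1 : ℤ) : ZMod M)
  inv := ((a 0 0 : ℤ) : ZMod M)
  val_inv := by rw [mul_comm]; exact lower_right_isUnit a ha
  inv_val := lower_right_isUnit a ha

@[simp] theorem coe_lowerUnit {M : ℕ} (a : SL(2, ℤ)) (ha : a ∈ Gamma0 M) :
    ((lowerUnit a ha : (ZMod M)ˣ) : ZMod M) = ((a 1 1 : ℤ) : ZMod M) := rfl

open Classical in
/-- The value of a character of `(ℤ/M)ˣ` at a natural number (`0` if not coprime to `M`). -/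
def natVal {M : ℕ} {F : Type*} [Field F] (δ : (ZMod M)ˣ →* Fˣ) (p : ℕ) : F :=
  if h : Nat.Coprime p M then ((δ (ZMod.unitOfCoprime p h) : Fˣ) : F) else 0

theorem natVal_of_coprime {M : ℕ} {F : Type*} [Field F] (δ : (ZMod M)ˣ →* Fˣ) {p : ℕ}
    (h : Nat.Coprime p M) : natVal δ p = ((δ (ZMod.unitOfCoprime p h) : Fˣ) : F) := by
  unfold natVal
  rw [dif_pos h]

theorem natVal_ne_zero {M : ℕ} {F : Type*} [Field F] (δ : (ZMod M)ˣ →* Fˣ) {p : ℕ}
    (h : Nat.Coprime p M) : natVal δ p ≠ 0 := by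
  rw [natVal_of_coprime δ h]
  exact Units.ne_zero _

/-- `cl : Γ₁(M) → F` is a nonzero parabolic class (zero on elements of finite order) which is a
simultaneous eigenvector: `T_p cl = α p • cl` (`p ∤ M` prime), `⟨a⟩ cl = δ(a₁₁) • cl`
(`a ∈ Γ₀(M)`); operators `H548.heckeHom1`, `H548.diaHom1`.  This is the exact output shape of
`H548.exists_eigenclass1` / `exists_eigenclass_mul`. -/
structure IsEigenclass (M : ℕ) [NeZero M] {F : Type} [Field F]
    (cl : Additive (Gamma1 M) →+ F) (α : ℕ → F) (δ : (ZMod M)ˣ →* Fˣ) : Prop where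
  ne_zero : cl ≠ 0
  parabolic : IsParabolicHom (Gamma1 M) cl
  finOrder : ∀ γ : Gamma1 M, IsOfFinOrder γ → cl (Additive.ofMul γ) = 0
  hecke : ∀ (p : ℕ) [Fact p.Prime] (hpM : ¬ p ∣ M) (γ : Additive (Gamma1 M)),
    heckeHom1 p hpM F cl γ = α p * cl γ
  diamond : ∀ (a : SL(2, ℤ)) (ha : a ∈ Gamma0 M) (γ : Additive (Gamma1 M)),
    diaHom1 a ha F cl γ = ((δ (lowerUnit a ha) : Fˣ) : F) * cl γ

/-- **ES1, sign `+`** (arithmetic tower, form 1): every parabolic Hecke eigenclass mod `ℓ` on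
`Γ₁(M)` has an attached Frobenius module with `Frob_p² - α_p Frob_p + p δ(p) = 0`, `p ∤ M ℓ`. -/
def ES1Plus : Prop :=
  ∀ (M : ℕ) [NeZero M] (ℓ : ℕ), ℓ.Prime → ∀ (F : Type) [Field F] [IsAlgClosed F] [CharP F ℓ]
    (cl : Additive (Gamma1 M) →+ F) (α : ℕ → F) (δ : (ZMod M)ˣ →* Fˣ),
    IsEigenclass M cl α δ →
      HasFrobModuleDet F (M * ℓ) α (fun p => (p : F) * natVal δ p)

/-- **ES1, sign `-`** (arithmetic tower, form 2): the attached Frobenius module satisfies
`Frob_p² - (α_p / δ(p)) Frob_p + p / δ(p) = 0`, `p ∤ M ℓ` (the module of the dual system). -/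
def ES1Minus : Prop :=
  ∀ (M : ℕ) [NeZero M] (ℓ : ℕ), ℓ.Prime → ∀ (F : Type) [Field F] [IsAlgClosed F] [CharP F ℓ]
    (cl : Additive (Gamma1 M) →+ F) (α : ℕ → F) (δ : (ZMod M)ˣ →* Fˣ),
    IsEigenclass M cl α δ →
      HasFrobModuleDet F (M * ℓ) (fun p => α p / natVal δ p) (fun p => (p : F) / natVal δ p)

/-- **COH** (cohomology side): for `ℓ > B` and every `ψ : ℤ̄ → F` (`F` algebraically closed of
characteristic `ℓ`) there are a level `M` with the same primes as `N ℓ` and a parabolic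
eigenclass on `Γ₁(M)` with `α_p = ψ(a_p)` and `p δ(p) = ψ(ε(p))` for all primes `p ∤ N ℓ`. -/
def CohEigStatement : Prop :=
  ∀ (N : ℕ) [NeZero N] (ε : DirichletCharacter ℂ N) (f : CuspForm (Gamma1 N) 1),
    IsEigen N ε f → ∃ B : ℕ, ∀ ℓ : ℕ, ℓ.Prime → B < ℓ →
      ∀ (F : Type) [Field F] [IsAlgClosed F] [CharP F ℓ] (ψ : Zbar →+* F),
        ∃ (M : ℕ) (_ : NeZero M) (cl : Additive (Gamma1 M) →+ F) (α : ℕ → F)
          (δ : (ZMod M)ˣ →* Fˣ),
          (∀ p : ℕ, p.Prime → p ∣ M → p ∣ N * ℓ) ∧ IsEigenclass M cl α δ ∧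
          ∀ p : ℕ, p.Prime → ¬ p ∣ N * ℓ →
            ∃ a e : Zbar, (a : ℂ) = ModularFormClass.qCoeff f p ∧ (e : ℂ) = ε (p : ZMod N) ∧
              α p = ψ a ∧ (p : F) * natVal δ p = ψ e

end Fermat.Agent.S48.Res
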