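import Fermat.Agent.S48.Res.Spec

/-!
# S48 / RES: twisting a Frobenius module by a Dirichlet character (helper16)

`frobDet_twist` : if a nonzero smooth `F[G_ℚ]`-module, unramified outside `S`, satisfies
`Frob_p² - a_p Frob_p + e_p = 0` (`p ∤ S`), then for every character `χ : (ℤ/M)ˣ → Fˣ`, `M` with
all its primes dividing `S`, the twisted module `ρ ⊗ (χ ∘ cycloN M)` satisfies
`Frob_p² - χ(p) a_p Frob_p + χ(p)² e_p = 0`.

This makes the chain of `Res/Chain.lean` independent of the sign convention for the diamond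
operators in the arithmetic tower (`ES1Plus` / `ES1Minus`).
-/

set_option autoImplicit false

noncomputable section

namespace Fermat.Agent.S48.Res

open Fermat.Agent.S29 Fermat.Agent.S48.H888

variable {F : Type} [Field F]

/-- The Galois character `χ ∘ cycloN M` with values in `F`. -/
def galUnitChar (M : ℕ) [NeZero M] (χ : (ZMod M)ˣ →* Fˣ) : GalQ →* F :=
  (Units.coeHom F).comp (χ.comp (cycloN M))

theorem galUnitChar_apply (M : ℕ) [NeZero M] (χ : (ZMod M)ˣ →* Fˣ) (σ : GalQ) :
    galUnitChar M χ σ = ((χ (cycloN M σ) : Fˣ) : F) := rfl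

theorem galUnitChar_eq_one_of_fixes (M : ℕ) [NeZero M] (χ : (ZMod M)ˣ →* Fˣ) (σ : GalQ)
    (hσ : ∀ t : AlgebraicClosure ℚ, t ^ M = 1 → σ t = t) : galUnitChar M χ σ = 1 := by
  rw [galUnitChar_apply, cycloN_eq_one_of_fixes M σ hσ, map_one, Units.val_one]

theorem galUnitChar_eq_one_of_mem_inertia (M : ℕ) [NeZero M] (χ : (ZMod M)ˣ →* Fˣ)
    {p : ℕ} (hp : p.Prime) (hpM : ¬ p ∣ M)
    (A : ValuationSubring (AlgebraicClosure ℚ)) (hA : A.LiesOverPrime p)
    (σ : GalQ) (hσ : σ ∈ A.inertiaSubgroupIn ℚ) : galUnitChar M χ σ = 1 := by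
  rw [galUnitChar_apply, cycloN_eq_one_of_mem_inertia M hp hpM A hA σ hσ, map_one, Units.val_one]

theorem galUnitChar_frobenius (M : ℕ) [NeZero M] (χ : (ZMod M)ˣ →* Fˣ)
    {p : ℕ} (hp : p.Prime) (hpM : ¬ p ∣ M)
    (A : ValuationSubring (AlgebraicClosure ℚ)) (hA : A.LiesOverPrime p)
    (τ : GalQ) (hτ : A.IsFrobeniusAt τ p) : galUnitChar M χ τ = natVal χ p := by
  have hcop : Nat.Coprime p M := (Nat.Prime.coprime_iff_not_dvd hp).2 hpM
  rw [galUnitChar_apply, natVal_of_coprime χ hcop]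
  congr 2
  apply Units.ext
  rw [cycloN_frobenius M hp hpM A hA τ hτ, ZMod.coe_unitOfCoprime]

/-- The twisted representation `σ ↦ χ(σ) • ρ σ`. -/
def twistRep {V : Type} [AddCommGroup V] [Module F V] (ρ : GalQ →* Module.End F V)
    (c : GalQ →* F) : GalQ →* Module.End F V where
  toFun σ := c σ • ρ σ
  map_one' := by rw [map_one, map_one, one_smul]
  map_mul' σ τ := by
    rw [map_mul, map_mul, smul_mul_smul_comm]

@[simp] theorem twistRep_apply {V : Type} [AddCommGroup V] [Module F V]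
    (ρ : GalQ →* Module.End F V) (c : GalQ →* F) (σ : GalQ) (x : V) :
    twistRep ρ c σ x = c σ • ρ σ x := rfl

/-- The field generated by the `M`-th roots of unity is finite over `ℚ`. -/
theorem finiteDimensional_adjoin_roots (M : ℕ) [NeZero M] :
    FiniteDimensional ℚ
      (IntermediateField.adjoin ℚ ((rootsFinset M : Finset (AlgebraicClosure ℚ)) :
        Set (AlgebraicClosure ℚ))) :=
  IntermediateField.finiteDimensional_adjoin
    (fun x _ => (AlgebraicClosure.isAlgebraic ℚ).isIntegral.isIntegral x)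

/-- **TWIST.** -/
theorem frobDet_twist {S : ℕ} {a e : ℕ → F} (M : ℕ) [NeZero M]
    (χ : (ZMod M)ˣ →* Fˣ) (hMS : ∀ p : ℕ, p.Prime → p ∣ M → p ∣ S)
    (h : HasFrobModuleDet F S a e) :
    HasFrobModuleDet F S (fun p => natVal χ p * a p) (fun p => natVal χ p ^ 2 * e p) := by
  obtain ⟨V, iA, iM, ρ, hnt, hsm, hur, hfq⟩ := h
  refine ⟨V, iA, iM, twistRep ρ (galUnitChar M χ), hnt, ?_, ?_, ?_⟩
  · intro x
    obtain ⟨L, hL, hfix⟩ := hsm x
    have := hL
    have := finiteDimensional_adjoin_roots M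
    refine ⟨L ⊔ IntermediateField.adjoin ℚ ((rootsFinset M : Finset (AlgebraicClosure ℚ)) :
        Set (AlgebraicClosure ℚ)), IntermediateField.finiteDimensional_sup _ _, ?_⟩
    intro σ hσ
    have h1 : ρ σ x = x := hfix σ (fun y hy => hσ y ((le_sup_left : L ≤ _) hy))
    have h2 : galUnitChar M χ σ = 1 :=
      galUnitChar_eq_one_of_fixes M χ σ (fun t ht => hσ t
        ((le_sup_right : IntermediateField.adjoin ℚ _ ≤ _)
          (IntermediateField.subset_adjoin ℚ _ (Finset.mem_coe.2 (mem_rootsFinset ht)))))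
    rw [twistRep_apply, h1, h2, one_smul]
  · intro p hp hS A hA σ hσ
    have hpM : ¬ p ∣ M := fun hd => hS (hMS p hp hd)
    ext x
    rw [twistRep_apply, galUnitChar_eq_one_of_mem_inertia M χ hp hpM A hA σ hσ, one_smul,
      hur p hp hS A hA σ hσ]
  · intro p hp hS A hA σ hσ x
    have hpM : ¬ p ∣ M := fun hd => hS (hMS p hp hd)
    have hc := galUnitChar_frobenius M χ hp hpM A hA σ hσ
    have h0 := hfq p hp hS A hA σ hσ x
    simp only [twistRep_apply, hc, map_smul]
    have : natVal χ p • natVal χ p • ρ σ (ρ σ x) - (natVal χ p * a p) • natVal χ p • ρ σ x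
        + (natVal χ p ^ 2 * e p) • x
        = (natVal χ p ^ 2) • (ρ σ (ρ σ x) - a p • ρ σ x + e p • x) := by
      simp only [smul_add, smul_sub, smul_smul]
      ring_nf
    rw [this, h0, smul_zero]

end Fermat.Agent.S48.Res
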